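import Fermat.Agent.S55.Local.Spec
import Fermat.Agent.S55.H535.Filtration

/-!
# S55 layer L, pieces A1 (`FiltH1Statement`) and A2 (`FiltH2Statement`) — helper535

Successive approximation for `1`- and `2`-cocycles along a complete separated `G`-stable
filtration, deduced from `Fermat.Agent.S55.H535.exact_of_graded_exact` applied to the
(multiplicative) inhomogeneous cochain complex `M → (G → M) → (G × G → M) → (G × G × G → M)`.
-/

set_option autoImplicit false

namespace Fermat.Agent.S55.Local.H535

open Fermat.Agent.S55.H535 groupCohomology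

section

variable {G M : Type} [Group G] [CommGroup M] [MulDistribMulAction G M]

/-- The pointwise filtration on functions `X → M`. -/
def funFil (X : Type) (Fil : ℕ → Subgroup M) (j : ℕ) : Subgroup (X → M) where
  carrier := {c | ∀ x, c x ∈ Fil j}
  one_mem' := fun _ => (Fil j).one_mem
  mul_mem' := fun ha hb x => (Fil j).mul_mem (ha x) (hb x)
  inv_mem' := fun ha x => (Fil j).inv_mem (ha x)

lemma mem_funFil {X : Type} {Fil : ℕ → Subgroup M} {j : ℕ} {c : X → M} :
    c ∈ funFil X Fil j ↔ ∀ x, c x ∈ Fil j := Iff.rfl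

lemma funFil_sep (X : Type) (Fil : ℕ → Subgroup M) (hsep : ∀ x : M, (∀ j, x ∈ Fil j) → x = 1) :
    MulSeparated (funFil X Fil) := by
  intro c hc
  funext x
  exact hsep (c x) (fun j => hc j x)

lemma funFil_complete (X : Type) (Fil : ℕ → Subgroup M)
    (hcomp : ∀ u : ℕ → M, (∀ j, u j ∈ Fil j) →
      ∃ s : M, ∀ n, s / ∏ j ∈ Finset.range n, u j ∈ Fil n) :
    MulComplete (funFil X Fil) := by
  intro a ha
  choose s hs using fun x => hcomp (fun j => a j x) (fun j => ha j x)
  refine ⟨s, fun n x => ?_⟩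
  have := hs x n
  simpa [Finset.prod_apply] using this

/-- `d⁰ : M → (G → M)`, `m ↦ (g ↦ g • m / m)`. -/
def d0 : M →* (G → M) where
  toFun m := fun g => g • m / m
  map_one' := by funext g; simp
  map_mul' a b := by funext g; simp [smul_mul', mul_div_mul_comm]

/-- `d¹ : (G → M) → (G × G → M)`, `c ↦ ((g, h) ↦ g • c h * c g / c (g h))`. -/
def d1 : (G → M) →* (G × G → M) where
  toFun c := fun p => p.1 • c p.2 * c p.1 / c (p.1 * p.2)
  map_one' := by funext p; simp
  map_mul' a b := by
    funext p
    simp only [Pi.mul_apply, smul_mul']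
    apply Additive.ofMul.injective
    simp only [ofMul_mul, ofMul_div]
    abel

/-- `d²' : (G → M) → (G × G → M)`, `x ↦ ((g, h) ↦ g • x h / x (g h) * x g)`
(the convention of `IsMulCoboundary₂`). -/
def d1' : (G → M) →* (G × G → M) where
  toFun c := fun p => p.1 • c p.2 / c (p.1 * p.2) * c p.1
  map_one' := by funext p; simp
  map_mul' a b := by
    funext p
    simp only [Pi.mul_apply, smul_mul']
    apply Additive.ofMul.injective
    simp only [ofMul_mul, ofMul_div]
    abel

/-- `d² : (G × G → M) → (G × G × G → M)`. -/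
def d2 : (G × G → M) →* (G × G × G → M) where
  toFun c := fun t => c (t.1 * t.2.1, t.2.2) * c (t.1, t.2.1) /
    (t.1 • c (t.2.1, t.2.2) * c (t.1, t.2.1 * t.2.2))
  map_one' := by funext t; simp
  map_mul' a b := by
    funext t
    simp only [Pi.mul_apply, smul_mul']
    apply Additive.ofMul.injective
    simp only [ofMul_mul, ofMul_div]
    abel

lemma d1_eq_one_iff (c : G → M) : d1 c = 1 ↔ IsMulCocycle₁ c := by
  constructor
  · intro h g k
    have := congrFun h (g, k)
    simp only [d1, MonoidHom.coe_mk, OneHom.coe_mk, Pi.one_apply] at this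
    exact (div_eq_one.1 this).symm
  · intro h
    funext p
    simp only [d1, MonoidHom.coe_mk, OneHom.coe_mk, Pi.one_apply]
    exact div_eq_one.2 (h p.1 p.2).symm

lemma d2_eq_one_iff (c : G × G → M) : d2 c = 1 ↔ IsMulCocycle₂ c := by
  constructor
  · intro h g k j
    have := congrFun h (g, k, j)
    simp only [d2, MonoidHom.coe_mk, OneHom.coe_mk, Pi.one_apply] at this
    exact div_eq_one.1 this
  · intro h
    funext t
    simp only [d2, MonoidHom.coe_mk, OneHom.coe_mk, Pi.one_apply]
    exact div_eq_one.2 (h t.1 t.2.1 t.2.2)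

lemma d1_d0 (m : M) : d1 (d0 (G := G) m) = 1 := by
  funext p
  simp only [d1, d0, MonoidHom.coe_mk, OneHom.coe_mk, Pi.one_apply, smul_div', mul_smul]
  rw [div_mul_div_cancel, div_self']

lemma d2_d1' (x : G → M) : d2 (d1' x) = 1 := by
  funext t
  obtain ⟨g, h, j⟩ := t
  simp only [d2, d1', MonoidHom.coe_mk, OneHom.coe_mk, Pi.one_apply, smul_div', smul_mul',
    mul_smul, mul_assoc]
  apply Additive.ofMul.injective
  simp only [ofMul_mul, ofMul_div, ofMul_one]
  abel

end

/-- **A1.** Successive approximation for `1`-cocycles. -/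
theorem filtH1 : Fermat.Agent.S55.Local.FiltH1Statement := by
  intro G M _ _ _ Fil _ hstab hcomp hsep hgr c hc hc0
  have key := exact_of_graded_exact (funFil G Fil) Fil (d0 (G := G) (M := M)) d1 d1_d0
    (fun j b hb g => (Fil j).div_mem (hstab j g b hb) hb)
    (funFil_sep G Fil hsep) hcomp
    (fun j x hx hx1 => by
      obtain ⟨m, hm, h⟩ := hgr j x ((d1_eq_one_iff x).1 hx1) hx
      exact ⟨m, hm, fun g => h g⟩)
    c hc0 ((d1_eq_one_iff c).2 hc)
  obtain ⟨m, hm, h⟩ := key
  exact ⟨m, hm, fun g => congrFun h g⟩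

/-- **A2.** Successive approximation for `2`-cocycles. -/
theorem filtH2 : Fermat.Agent.S55.Local.FiltH2Statement := by
  intro G M _ _ _ _ Fil _ hstab hcomp hsep hgr c hc hc0
  have key := exact_of_graded_exact (funFil (G × G) Fil) (funFil G Fil)
    (d1' (G := G) (M := M)) d2 d2_d1'
    (fun j b hb p => (Fil j).mul_mem
      ((Fil j).div_mem (hstab j p.1 _ (hb p.2)) (hb (p.1 * p.2))) (hb p.1))
    (funFil_sep (G × G) Fil hsep) (funFil_complete G Fil hcomp)
    (fun j x hx hx1 => by
      obtain ⟨y, hy, h⟩ := hgr j x ((d2_eq_one_iff x).1 hx1) hx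
      exact ⟨y, hy, fun p => h p.1 p.2⟩)
    c hc0 ((d2_eq_one_iff c).2 hc)
  obtain ⟨x, hx, h⟩ := key
  exact ⟨x, hx, fun g k => congrFun h (g, k)⟩

end Fermat.Agent.S55.Local.H535
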