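import Fermat.Agent.S55.Local.H535.A4b
import Fermat.Agent.S55.Local.H535.A12

/-!
# S55 layer L, piece A4c (`CycCocycleSurjStatement`) — helper535

Every `2`-cocycle of a finite cyclic group is cohomologous to a standard cyclic cocycle.
-/

set_option autoImplicit false

namespace Fermat.Agent.S55.Local.H535

open Fermat.Agent.S55.Local groupCohomology Finset

section

variable {G M : Type} [Group G] [CommGroup M] [MulDistribMulAction G M]

/-- The quotient of a cocycle by a coboundary is a cocycle. -/
lemma isMulCocycle₂_div_d1' {c : G × G → M} (hc : IsMulCocycle₂ c) (b : G → M) :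
    IsMulCocycle₂ (fun p => c p / (p.1 • b p.2 / b (p.1 * p.2) * b p.1)) := by
  have h1 : d2 c = 1 := (d2_eq_one_iff c).2 hc
  have h2 : d2 (d1' b) = 1 := d2_d1' b
  have h3 : d2 (c / d1' b) = 1 := by rw [map_div, h1, h2, div_one]
  exact (d2_eq_one_iff _).1 h3

end

/-- **A4c.** Every `2`-cocycle of a finite cyclic group is cohomologous to a standard one. -/
theorem cycCocycleSurj : Fermat.Agent.S55.Local.CycCocycleSurjStatement := by
  intro G M _ _ _ _ σ hσ c hc
  have hn : 0 < Nat.card G := Nat.card_pos
  rcases Nat.lt_or_ge (Nat.card G) 2 with h1 | h2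
  · -- trivial group
    have hc1 : Nat.card G = 1 := by omega
    have hsub : ∀ g : G, g = 1 := by
      intro g
      have := cycIdx_lt hσ g
      rw [← pow_cycIdx hσ g, show cycIdx σ g = 0 by omega, pow_zero]
    refine ⟨1, smul_one σ, fun _ => c (1, 1), fun g h => ?_⟩
    rw [hsub g, hsub h]
    simp [cycCocycle_apply]
  · set n := Nat.card G with hndef
    -- partial products and the candidate
    set Q : ℕ → M := fun m => ∏ k ∈ range m, c (σ ^ k, σ) with hQ
    have hQsucc : ∀ m, Q (m + 1) = Q m * c (σ ^ m, σ) := fun m => prod_range_succ _ _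
    have hQ0 : Q 0 = 1 := prod_range_zero _
    set x : M := Q n with hx
    set b : G → M := fun g => c (1, 1) / Q (cycIdx σ g) with hb
    set c' : G × G → M := fun p => c p / (p.1 • b p.2 / b (p.1 * p.2) * b p.1) with hc'def
    have hc' : IsMulCocycle₂ c' := isMulCocycle₂_div_d1' hc b
    have hσn : σ ^ n = 1 := by rw [hndef, ← orderOf_eq_card hσ]; exact pow_orderOf_eq_one σ
    have hbpow : ∀ i, i < n → b (σ ^ i) = c (1, 1) / Q i := by
      intro i hi
      simp only [hb, cycIdx_pow_of_lt hσ hi]
    have hbσ : b σ = 1 := by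
      have := hbpow 1 (by omega)
      rw [pow_one] at this
      rw [this, hQsucc, hQ0, one_mul, pow_zero, map_one_fst_of_isMulCocycle₂ hc σ, div_self']
    have hb1 : b 1 = c (1, 1) := by
      have := hbpow 0 (by omega)
      rw [pow_zero] at this
      rw [this, hQ0, div_one]
    -- (i) values at `(σ^i, σ)`
    have hi1 : ∀ i, i + 1 < n → c' (σ ^ i, σ) = 1 := by
      intro i hi
      simp only [hc'def]
      rw [hbσ, smul_one, ← pow_succ, hbpow (i + 1) hi, hbpow i (by omega), hQsucc]
      apply Additive.ofMul.injective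
      simp only [ofMul_mul, ofMul_div, ofMul_one]
      abel
    have hi2 : c' (σ ^ (n - 1), σ) = x := by
      simp only [hc'def]
      have e : σ ^ (n - 1) * σ = 1 := by rw [← pow_succ, Nat.sub_add_cancel (by omega), hσn]
      rw [hbσ, smul_one, e, hb1, hbpow (n - 1) (by omega)]
      have hxQ : x = Q (n - 1) * c (σ ^ (n - 1), σ) := by
        rw [hx, ← hQsucc, Nat.sub_add_cancel (by omega)]
      rw [hxQ]
      apply Additive.ofMul.injective
      simp only [ofMul_mul, ofMul_div, ofMul_one]
      abel
    -- normalisation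
    have h11 : c' (1, 1) = 1 := by
      have := hi1 0 (by omega)
      rw [pow_zero] at this
      rw [← map_one_fst_of_isMulCocycle₂ hc' σ, this]
    have hg1 : ∀ g : G, c' (g, 1) = 1 := fun g => by
      rw [map_one_snd_of_isMulCocycle₂ hc', h11, smul_one]
    -- (iii) all values
    have hall : ∀ j, j < n → ∀ i, i < n → c' (σ ^ i, σ ^ j) = x ^ ((i + j) / n) := by
      intro j
      induction j with
      | zero =>
        intro _ i hi
        rw [pow_zero, hg1, add_zero, Nat.div_eq_of_lt hi, pow_zero]
      | succ j ih =>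
        intro hj i hi
        have ihj := ih (by omega) i hi
        have hC := hc' (σ ^ i) (σ ^ j) σ
        rw [hi1 j hj, smul_one, one_mul, ← pow_succ, ← pow_add, ihj] at hC
        -- hC : c' (σ ^ (i + j), σ) * x ^ ((i + j) / n) = c' (σ ^ i, σ ^ (j + 1))
        rw [← hC]
        rcases Nat.lt_trichotomy (i + j) (n - 1) with hlt | heq | hgt
        · rw [hi1 (i + j) (by omega), one_mul, Nat.div_eq_of_lt (by omega),
            show i + (j + 1) = i + j + 1 by ring, Nat.div_eq_of_lt (by omega)]
        · rw [heq, hi2, Nat.div_eq_of_lt (by omega), pow_zero, mul_one,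
            show i + (j + 1) = n by omega, Nat.div_self hn, pow_one]
        · have hmod : σ ^ (i + j) = σ ^ (i + j - n) := by
            conv_lhs => rw [show i + j = (i + j - n) + n by omega, pow_add, hσn, mul_one]
          rw [hmod, hi1 (i + j - n) (by omega), one_mul,
            div_one_case (by omega : n ≤ i + j) (by omega),
            div_one_case (by omega : n ≤ i + (j + 1)) (by omega)]
    -- (iv) invariance
    have hxinv : σ • x = x := by
      have hC := hc' σ (σ ^ (n - 1)) σ
      have e1 : σ * σ ^ (n - 1) = 1 := by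
        rw [← pow_succ', Nat.sub_add_cancel (by omega), hσn]
      have e2 : σ ^ (n - 1) * σ = 1 := by
        rw [← pow_succ, Nat.sub_add_cancel (by omega), hσn]
      have e3 : c' (σ, σ ^ (n - 1)) = x := by
        have := hall (n - 1) (by omega) 1 (by omega)
        rw [pow_one, show 1 + (n - 1) = n by omega, Nat.div_self hn, pow_one] at this
        exact this
      rw [e1, e2, hi2, hg1, mul_one, e3, map_one_fst_of_isMulCocycle₂ hc' σ, h11, one_mul] at hC
      exact hC.symm
    refine ⟨x, hxinv, b, fun g h => ?_⟩
    have hgh := hall (cycIdx σ h) (cycIdx_lt hσ h) (cycIdx σ g) (cycIdx_lt hσ g)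
    rw [pow_cycIdx hσ, pow_cycIdx hσ] at hgh
    show g • b h / b (g * h) * b g = c (g, h) / cycCocycle σ x (g, h)
    rw [cycCocycle_apply, ← hgh]
    simp only [hc'def]
    apply Additive.ofMul.injective
    simp only [ofMul_mul, ofMul_div]
    abel

end Fermat.Agent.S55.Local.H535
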