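import Fermat.Agent.S55.Local.Spec
import Fermat.Agent.S55.H535.Filtration

/-!
# S55 layer L, piece A3 (`FiltKerImStatement`) — helper535

Direct consequence of `Fermat.Agent.S55.H535.exact_of_graded_exact`.
-/

set_option autoImplicit false

namespace Fermat.Agent.S55.Local.H535

open Fermat.Agent.S55.H535

/-- **A3.** Successive approximation for `ker f ⊆ im g`. -/
theorem filtKerIm : Fermat.Agent.S55.Local.FiltKerImStatement := by
  intro M _ f g Fil _ hg hcomp hsep hfg hgr x hx0 hx
  exact exact_of_graded_exact Fil Fil g f hfg hg hsep hcomp hgr x hx0 hx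

end Fermat.Agent.S55.Local.H535
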