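import Fermat.Agent.S55.Local.H535.CycIdx

/-!
# S55 layer L, pieces A4a (`CycCocycleIsCocycleStatement`) and A4d
(`CycCocyclePullbackStatement`) — helper535
-/

set_option autoImplicit false

namespace Fermat.Agent.S55.Local.H535

open Fermat.Agent.S55.Local groupCohomology

lemma cycCocycle_apply {G M : Type} [Group G] [CommGroup M] (σ : G) (x : M) (g h : G) :
    cycCocycle σ x (g, h) = x ^ ((cycIdx σ g + cycIdx σ h) / Nat.card G) := rfl

/-- **A4a.** The standard cyclic `2`-cocycle is a `2`-cocycle. -/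
theorem cycCocycleIsCocycle : Fermat.Agent.S55.Local.CycCocycleIsCocycleStatement := by
  intro G M _ _ _ _ σ hσ x hx g h j
  have hn : 0 < Nat.card G := Nat.card_pos
  have hinv : ∀ (g : G) (m : ℕ), g • x ^ m = x ^ m := fun g m => by
    rw [smul_pow', smul_eq_of_generator hσ hx]
  simp only [cycCocycle_apply, hinv, ← pow_add, cycIdx_mul hσ]
  congr 1
  have e1 := carry_add (Nat.card G) (cycIdx σ g + cycIdx σ h) (cycIdx σ j) hn
  have e2 := carry_add (Nat.card G) (cycIdx σ h + cycIdx σ j) (cycIdx σ g) hn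
  rw [e1, add_comm ((cycIdx σ h + cycIdx σ j) / Nat.card G),
    add_comm (cycIdx σ g) ((cycIdx σ h + cycIdx σ j) % Nat.card G), e2]
  congr 1
  ring

/-- **A4d.** Functoriality of the standard cocycle under an injective homomorphism of cyclic
groups. -/
theorem cycCocyclePullback : Fermat.Agent.S55.Local.CycCocyclePullbackStatement := by
  intro G H M _ _ _ _ _ σ τ ρ hσ hτ hρ hρτ x p
  obtain ⟨a, b⟩ := p
  have hn : 0 < Nat.card G := Nat.card_pos
  have hm : 0 < Nat.card H := Nat.card_pos
  -- `|H|` divides `|G|`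
  have hdvd : Nat.card H ∣ Nat.card G := by
    have h1 := Subgroup.card_subgroup_dvd_card ρ.range
    have h2 : Nat.card ρ.range = Nat.card H :=
      (Nat.card_congr (MonoidHom.ofInjective hρ).toEquiv).symm
    rwa [h2] at h1
  obtain ⟨d, hd⟩ := hdvd
  have hd' : Nat.card G / Nat.card H = d := by
    rw [hd, Nat.mul_div_cancel_left _ hm]
  have hdpos : 0 < d := by
    rcases Nat.eq_zero_or_pos d with h | h
    · rw [h, mul_zero] at hd; omega
    · exact h
  have key : ∀ c : H, cycIdx σ (ρ c) = d * cycIdx τ c := by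
    intro c
    have h1 : ρ c = σ ^ (d * cycIdx τ c) := by
      conv_lhs => rw [← pow_cycIdx hτ c]
      rw [map_pow, hρτ, hd', ← pow_mul]
    rw [h1]
    apply cycIdx_pow_of_lt hσ
    rw [hd, mul_comm (Nat.card H) d]
    exact Nat.mul_lt_mul_of_pos_left (cycIdx_lt hτ c) hdpos
  simp only [cycCocycle_apply, key]
  congr 1
  rw [hd, ← mul_add, mul_comm (Nat.card H) d, Nat.mul_div_mul_left _ _ hdpos]

end Fermat.Agent.S55.Local.H535
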