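import Fermat.Agent.S55.Local.H535.A4ad

/-!
# S55 layer L, piece A4b (`CycCocycleCoboundaryIffStatement`) — helper535

The standard cyclic `2`-cocycle of `x` is a coboundary iff `x` is a norm.
-/

set_option autoImplicit false

namespace Fermat.Agent.S55.Local.H535

open Fermat.Agent.S55.Local groupCohomology Finset

section

variable {G M : Type} [Group G] [CommGroup M] [MulDistribMulAction G M]

/-- Partial norm `∏_{k<m} σ^k • y`. -/
def partialNorm (σ : G) (y : M) (m : ℕ) : M := ∏ k ∈ range m, σ ^ k • y

lemma partialNorm_add (σ : G) (y : M) (a b : ℕ) :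
    partialNorm σ y (a + b) = partialNorm σ y a * σ ^ a • partialNorm σ y b := by
  unfold partialNorm
  rw [prod_range_add, smul_prod']
  congr 1
  apply prod_congr rfl
  intro k _
  rw [pow_add, mul_smul]

lemma div_one_case {n a : ℕ} (h1 : n ≤ a) (h2 : a < 2 * n) : a / n = 1 := by
  apply Nat.div_eq_of_lt_le
  · simpa using h1
  · simpa [two_mul] using h2

lemma mod_one_case {n a : ℕ} (h1 : n ≤ a) (h2 : a < 2 * n) : a % n = a - n := by
  rw [Nat.mod_eq_sub_mod h1]
  apply Nat.mod_eq_of_lt
  omega

end

/-- **A4b.** The standard cyclic `2`-cocycle of `x` is a coboundary iff `x` is a norm. -/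
theorem cycCocycleCoboundaryIff :
    Fermat.Agent.S55.Local.CycCocycleCoboundaryIffStatement := by
  intro G M _ _ _ _ σ hσ x hx
  have hn : 0 < Nat.card G := Nat.card_pos
  have hinv : ∀ (g : G) (m : ℕ), g • x ^ m = x ^ m := fun g m => by
    rw [smul_pow', smul_eq_of_generator hσ hx]
  constructor
  · -- coboundary ⇒ norm
    rintro ⟨b, hb⟩
    rcases Nat.lt_or_ge (Nat.card G) 2 with h1 | h2
    · -- trivial group
      have hc : Nat.card G = 1 := by omega
      refine ⟨x, ?_⟩
      rw [prod_univ_eq_prod_range hσ, hc]
      simp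
    · refine ⟨b σ, ?_⟩
      have hrel : ∀ g : G, g • b σ = cycCocycle σ x (g, σ) * b (g * σ) / b g := by
        intro g
        rw [← hb g σ]
        apply Additive.ofMul.injective
        simp only [ofMul_mul, ofMul_div]
        abel
      have hshift : ∏ g : G, b (g * σ) = ∏ g : G, b g :=
        Equiv.prod_comp (Equiv.mulRight σ) b
      calc ∏ g : G, g • b σ = ∏ g : G, (cycCocycle σ x (g, σ) * b (g * σ) / b g) :=
            prod_congr rfl (fun g _ => hrel g)
        _ = (∏ g : G, cycCocycle σ x (g, σ)) * (∏ g : G, b (g * σ)) / ∏ g : G, b g := by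
            rw [prod_div_distrib, prod_mul_distrib]
        _ = ∏ g : G, cycCocycle σ x (g, σ) := by
            rw [hshift, mul_div_assoc, div_self', mul_one]
        _ = ∏ k ∈ range (Nat.card G), cycCocycle σ x (σ ^ k, σ) :=
            prod_univ_eq_prod_range hσ _
        _ = x := by
            obtain ⟨m, hm⟩ : ∃ m, Nat.card G = m + 1 := ⟨Nat.card G - 1, by omega⟩
            rw [hm, prod_range_succ]
            have h3 : ∀ k ∈ range m, cycCocycle σ x (σ ^ k, σ) = 1 := by
              intro k hk
              rw [mem_range] at hk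
              rw [cycCocycle_apply, cycIdx_pow_of_lt hσ (by omega), cycIdx_self hσ h2,
                Nat.div_eq_of_lt (by omega), pow_zero]
            rw [prod_eq_one h3, one_mul, cycCocycle_apply, cycIdx_pow_of_lt hσ (by omega),
              cycIdx_self hσ h2, ← hm, Nat.div_self hn, pow_one]
  · -- norm ⇒ coboundary
    rintro ⟨y, hy⟩
    have hPn : partialNorm σ y (Nat.card G) = x := by
      rw [← hy, prod_univ_eq_prod_range hσ]
      rfl
    have hPnq : ∀ q : ℕ, partialNorm σ y (Nat.card G * q) = x ^ q := by
      intro q
      induction q with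
      | zero => simp [partialNorm]
      | succ q ih =>
        rw [mul_add, mul_one, partialNorm_add, ih, hPn, smul_eq_of_generator hσ hx, pow_succ]
    refine ⟨fun g => partialNorm σ y (cycIdx σ g), fun g h => ?_⟩
    simp only [cycCocycle_apply, cycIdx_mul hσ]
    set i := cycIdx σ g
    set j := cycIdx σ h
    have hg : g = σ ^ i := (pow_cycIdx hσ g).symm
    have h1 : partialNorm σ y (i + j) = partialNorm σ y i * g • partialNorm σ y j := by
      rw [partialNorm_add, ← hg]
    have h2 : partialNorm σ y (i + j) =
        partialNorm σ y ((i + j) % Nat.card G) * x ^ ((i + j) / Nat.card G) := by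
      conv_lhs => rw [← Nat.mod_add_div (i + j) (Nat.card G)]
      rw [partialNorm_add, hPnq, hinv]
    rw [h2] at h1
    have e : g • partialNorm σ y j / partialNorm σ y ((i + j) % Nat.card G) * partialNorm σ y i
        = (partialNorm σ y i * g • partialNorm σ y j) /
            partialNorm σ y ((i + j) % Nat.card G) := by
      apply Additive.ofMul.injective
      simp only [ofMul_mul, ofMul_div]
      abel
    rw [e, ← h1, mul_div_cancel_left]

end Fermat.Agent.S55.Local.H535
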