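import Fermat.Agent.S55.Local.Spec

/-!
# S55 layer L, cyclic groups: the discrete logarithm `cycIdx` — helper535

Basic facts about `Fermat.Agent.S55.Local.cycIdx σ g` for a generator `σ` of a finite cyclic
group, used by the pieces A4a–A4d.
-/

set_option autoImplicit false

namespace Fermat.Agent.S55.Local.H535

open Fermat.Agent.S55.Local

section

variable {G : Type} [Group G] [Finite G] {σ : G}

lemma orderOf_eq_card (hσ : ∀ g, g ∈ Subgroup.zpowers σ) : orderOf σ = Nat.card G :=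
  orderOf_eq_card_of_forall_mem_zpowers hσ

lemma card_pos' : 0 < Nat.card G := Nat.card_pos

lemma exists_pow_eq (hσ : ∀ g, g ∈ Subgroup.zpowers σ) (g : G) : ∃ k : ℕ, σ ^ k = g := by
  have h := hσ g
  rw [← mem_powers_iff_mem_zpowers] at h
  exact Submonoid.mem_powers_iff g σ |>.1 h

lemma pow_cycIdx (hσ : ∀ g, g ∈ Subgroup.zpowers σ) (g : G) : σ ^ cycIdx σ g = g :=
  Nat.sInf_mem (s := {k : ℕ | σ ^ k = g}) (exists_pow_eq hσ g)

lemma pow_mod_card (hσ : ∀ g, g ∈ Subgroup.zpowers σ) (k : ℕ) :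
    σ ^ (k % Nat.card G) = σ ^ k := by
  rw [← orderOf_eq_card hσ, pow_mod_orderOf]

lemma cycIdx_lt (hσ : ∀ g, g ∈ Subgroup.zpowers σ) (g : G) : cycIdx σ g < Nat.card G := by
  obtain ⟨k, hk⟩ := exists_pow_eq hσ g
  have h1 : k % Nat.card G ∈ {k : ℕ | σ ^ k = g} := by
    show σ ^ (k % Nat.card G) = g
    rw [pow_mod_card hσ, hk]
  exact lt_of_le_of_lt (Nat.sInf_le h1) (Nat.mod_lt _ card_pos')

lemma cycIdx_pow (hσ : ∀ g, g ∈ Subgroup.zpowers σ) (k : ℕ) :
    cycIdx σ (σ ^ k) = k % Nat.card G := by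
  have h1 := pow_cycIdx hσ (σ ^ k)
  have h2 := cycIdx_lt hσ (σ ^ k)
  rw [pow_eq_pow_iff_modEq, orderOf_eq_card hσ] at h1
  have h3 : cycIdx σ (σ ^ k) % Nat.card G = k % Nat.card G := h1
  rwa [Nat.mod_eq_of_lt h2] at h3

lemma cycIdx_pow_of_lt (hσ : ∀ g, g ∈ Subgroup.zpowers σ) {k : ℕ} (hk : k < Nat.card G) :
    cycIdx σ (σ ^ k) = k := by
  rw [cycIdx_pow hσ, Nat.mod_eq_of_lt hk]

lemma cycIdx_one (hσ : ∀ g, g ∈ Subgroup.zpowers σ) : cycIdx σ (1 : G) = 0 := by
  have := cycIdx_pow hσ 0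
  simpa using this

lemma cycIdx_mul (hσ : ∀ g, g ∈ Subgroup.zpowers σ) (g h : G) :
    cycIdx σ (g * h) = (cycIdx σ g + cycIdx σ h) % Nat.card G := by
  conv_lhs => rw [← pow_cycIdx hσ g, ← pow_cycIdx hσ h, ← pow_add]
  exact cycIdx_pow hσ _

lemma cycIdx_self (hσ : ∀ g, g ∈ Subgroup.zpowers σ) (h2 : 2 ≤ Nat.card G) :
    cycIdx σ σ = 1 := by
  have := cycIdx_pow hσ 1
  rw [pow_one] at this
  rw [this, Nat.mod_eq_of_lt h2]

lemma cycIdx_injective (hσ : ∀ g, g ∈ Subgroup.zpowers σ) :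
    Function.Injective (cycIdx σ) := by
  intro g h hgh
  rw [← pow_cycIdx hσ g, ← pow_cycIdx hσ h, hgh]

/-- Arithmetic of carries. -/
lemma carry_add (n a k : ℕ) (hn : 0 < n) : (a % n + k) / n + a / n = (a + k) / n := by
  conv_rhs => rw [← Nat.mod_add_div a n]
  rw [show a % n + n * (a / n) + k = a % n + k + n * (a / n) by ring,
    Nat.add_mul_div_left _ _ hn]

/-- `G`-invariance from `σ`-invariance. -/
lemma smul_eq_of_generator {M : Type} [CommGroup M] [MulDistribMulAction G M]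
    (hσ : ∀ g, g ∈ Subgroup.zpowers σ) {x : M} (hx : σ • x = x) (g : G) : g • x = x := by
  obtain ⟨k, rfl⟩ := exists_pow_eq hσ g
  induction k with
  | zero => simp
  | succ k ih => rw [pow_succ, mul_smul, hx, ih]

/-- Products over `G` are products over `range n` of powers of the generator. -/
lemma prod_univ_eq_prod_range [Fintype G] {M : Type} [CommMonoid M]
    (hσ : ∀ g, g ∈ Subgroup.zpowers σ) (F : G → M) :
    ∏ g : G, F g = ∏ k ∈ Finset.range (Nat.card G), F (σ ^ k) := by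
  symm
  apply Finset.prod_bij (fun k _ => σ ^ k)
  · intro k _; exact Finset.mem_univ _
  · intro a ha b hb hab
    rw [Finset.mem_range] at ha hb
    have := congrArg (cycIdx σ) hab
    rwa [cycIdx_pow_of_lt hσ ha, cycIdx_pow_of_lt hσ hb] at this
  · intro g _
    exact ⟨cycIdx σ g, Finset.mem_range.2 (cycIdx_lt hσ g), pow_cycIdx hσ g⟩
  · intro k _; rfl

end

end Fermat.Agent.S55.Local.H535
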